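import Fermat.Agent.FlatModel.Jacobian
import Fermat.Agent.Ordinary.Connected

/-!
# Coordinates of classes with trivial reduction

For a finite stable group of classes of degree zero which all reduce to zero, one fixed divisor
serves all classes. The coordinates of the echelon bases of `L(G - D_x)` then commute with inertia,
take congruent values at all points, separate them and are closed under comultiplication.
-/

set_option autoImplicit false
set_option linter.style.haveILetI false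
set_option linter.unusedSectionVars false

noncomputable section

open scoped Pointwise
open IsLocalRing

namespace FLTAgent.ModLift.Push

open AlgebraicCurve FLTAgent.Curves FLTAgent.Specialization FLTAgent.FlatModel
open FLTAgent.Frobenius (centre mem_centre_iff integralClosure_le)

local notation "QA" => AlgebraicClosure ℚ
local notation "GG" => (AlgebraicClosure ℚ ≃ₐ[ℚ] AlgebraicClosure ℚ)
local notation "ZB" => integralClosure ℤ (AlgebraicClosure ℚ)

variable {A : ValuationSubring QA}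

theorem mem_decomposition_of_inertia {σ : GG} (hσ : σ ∈ A.inertiaSubgroupIn ℚ) :
    σ ∈ A.decompositionSubgroup ℚ := by
  obtain ⟨g, -, rfl⟩ := hσ
  exact g.2

theorem inertia_sub_mem_centre {σ : GG} (hσ : σ ∈ A.inertiaSubgroupIn ℚ) (a : ZB) :
    σ • a - a ∈ centre A := by
  rw [mem_centre_iff, A.mem_nonunits_iff]
  exact Ordinary.valuation_inertia_sub hσ (integralClosure_le A a)

variable [IsAlgClosed (ResidueField A)] [IsAlgClosed QA]
variable {F Fb : Type*} [Field F] [Field Fb] [Algebra QA F] [Algebra (ResidueField A) Fb]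
  [IsFunctionField QA F] [IsFunctionField (ResidueField A) Fb]
variable {M : Model (residue A) F Fb} {ρ : GG →* SemilinearAut QA F}

set_option maxHeartbeats 2000000 in
/-- Coordinates of classes with trivial reduction. -/
theorem exists_coords_zero {ℓ : ℕ} [Fact ℓ.Prime] (hA : A.LiesOverPrime ℓ) (hM : M.Smooth)
    (hρ : IsArith ρ) (hx : ∀ σ, ρ σ • M.x = M.x) (hcoords : ∀ m, Nonempty (EqCoords M ρ m))
    {N : Type} [AddCommGroup N] [DistribMulAction GG N] [Finite N] (i : N →+ Pic0 QA F)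
    (hi : Function.Injective i) (heq : ∀ (σ : GG) x, i (σ • x) = ρ σ • i x)
    (hred : ∀ x, redHom hM (i x) = 0) :
    ∃ CS : Set (N → QA), CS.Finite ∧ (∀ f ∈ CS, ∀ y, f y ∈ A) ∧
      (∀ f ∈ CS, ∀ y, A.valuation (f y - f 0) < 1) ∧
      (∀ σ ∈ A.inertiaSubgroupIn ℚ, ∀ f ∈ CS, ∀ y, f (σ • y) = σ (f y)) ∧
      (∀ x y : N, x ≠ y → ∃ f ∈ CS, f x ≠ f y) ∧
      ∀ f ∈ CS, (fun q : N × N => f (q.1 + q.2)) ∈ Submodule.span A
        (Set.image2 (fun (a b : N → QA) (q : N × N) => a q.1 * b q.2)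
          (Algebra.adjoin A CS) (Algebra.adjoin A CS)) := by
  classical
  -- sizes
  obtain ⟨m₀, hm₀⟩ := M.exists_le_mul (M.bound + 1 + max (rGenus QA F) 0)
  set d : ℤ := (m₀ : ℤ) * M.deg
  have hd : M.bound + 1 + max (rGenus QA F) 0 ≤ d := hm₀ m₀ le_rfl
  obtain ⟨m, hm'⟩ := M.exists_le_mul (M.bound + 3 * d + 1)
  have hm : M.bound + 3 * d + 1 ≤ (m : ℤ) * M.deg := hm' m le_rfl
  have hb : rBound (ResidueField A) Fb + 1 ≤ M.bound := by rw [Model.bound]; omega
  have hb0 := rBound_nonneg (K := ResidueField A) (F := Fb)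
  have hgen := hM.rGenus_eq
  obtain ⟨C₆⟩ := hcoords (6 * m)
  let C : EqCoords M ρ m := ⟨C₆.toCoords.mono' (by omega), C₆.equiv⟩
  obtain ⟨BG⟩ := exists_fixedBasis hM hρ hx (by omega) C
  set G₀ := (m₀ : ℤ) • poleDiv QA M.x with hG₀
  set G₀b := (m₀ : ℤ) • poleDiv (ResidueField A) M.xb
  have hG₀deg : Divisor.degree G₀ = d := M.degree_poles m₀
  have hG₀bdeg : Divisor.degree G₀b = d := M.degree_poles_red m₀
  have hG₀map : Model.divMap hM G₀ = G₀b := by rw [hG₀, map_zsmul, Model.divMap_poleDiv hM]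
  -- a fixed divisor cutting out one representative of the zero class
  obtain ⟨P, Db, RP, hP, hPdeg, hPfix, hDb, hDb1⟩ : ∃ (P : Divisor QA F)
      (Db : Divisor (ResidueField A) Fb) (R : Finset ZB),
      0 ≤ P ∧ Divisor.degree P = d - rGenus QA F ∧
      (∀ σ ∈ A.decompositionSubgroup ℚ, (∀ a ∈ R, σ • a - a ∈ centre A) → ρ σ • P = P) ∧
      IsRep G₀b (Model.divMap hM P) 0 Db ∧ ell (Db - Model.divMap hM P) = 1 := by
    obtain ⟨⟨E, hE⟩, hE0⟩ := Pic0.mk_surjective (0 : Pic0 (ResidueField A) Fb)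
    have hEdeg : Divisor.degree (E + G₀b) = d := by
      rw [map_add, Divisor.mem_degZero.1 hE, hG₀bdeg, zero_add]
    have hell : ell (E + G₀b) = d + 1 - rGenus QA F := by
      rw [ell_eq (by omega), hEdeg, hgen]
    obtain ⟨Pb, hPb, hPdeg, hP1⟩ := exists_points (E := E + G₀b) (by omega)
    obtain ⟨P, R, hP, hPmap, hfix⟩ := exists_fixed_divisor hA hM hρ hx (by omega) BG hPb
    obtain ⟨Db, hDb⟩ := exists_rep (G₀ := G₀b) (P := Pb) (y := Pic0.mk ⟨E, hE⟩) fun D hD => by
      rw [ell_eq_of_isPrincipal (D' := E + G₀b - Pb) ?_, hP1]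
      rw [show (D : Divisor (ResidueField A) Fb) + G₀b - Pb - (E + G₀b - Pb) = D - E by abel]
      exact pic0_mk_eq_iff.1 hD
    refine ⟨P, Db, R, hP, ?_, hfix, hPmap.symm ▸ hE0 ▸ hDb, ?_⟩
    · rw [← Model.degree_divMap hM, hPmap, hPdeg, hell]; ring
    · obtain ⟨-, hd', hmk⟩ := hDb
      rw [hPmap, ← hP1]
      refine ell_eq_of_isPrincipal ?_
      rw [show Db - Pb - (E + G₀b - Pb) = Db - G₀b - E by abel]
      exact pic0_mk_eq_iff.1 hmk
  have hrepL : ∀ x, ∃ D, IsRep G₀ P (i x) D := fun x => exists_rep fun D _ => by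
    have h1 := riemann_ineq ((D : Divisor QA F) + G₀ - P)
    rw [map_sub, map_add, Divisor.mem_degZero.1 D.2, hG₀deg, hPdeg] at h1
    omega
  choose D hD using hrepL
  have hD0 : ∀ x, 0 ≤ D x := fun x => hP.trans (hD x).1
  have hDdeg : ∀ x, Divisor.degree (D x) = d := fun x => (hD x).degree.trans hG₀deg
  have hDmap : ∀ x, Model.divMap hM (D x) = Db := fun x => by
    refine hDb.unique ?_ hDb1.le
    have := (hD x).map hM
    rwa [hG₀map, hred] at this
  have hDbdeg : Divisor.degree Db = d := hDb.degree.trans hG₀bdeg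
  have hDell : ∀ x, ell (D x - P) ≤ 1 := fun x => by
    have := ell_le_divMap hM (D x - P)
    rwa [map_sub, hDmap, hDb1] at this
  -- echelon bases
  set G := (m : ℤ) • poleDiv QA M.x with hG
  set Gb := (m : ℤ) • poleDiv (ResidueField A) M.xb
  obtain ⟨s, gE, hgm, hg, hg0⟩ := exists_pivots C.toCoords (Vb := riemannRochSpace (Gb - Db))
  have hH1 := constRes_subsingleton (π := residue A) (⊤ : Subalgebra A (Unit → A))
  have hech : ∀ x : N, ∃ E : Fin _ → F,
      (∀ j, E j ∈ riemannRochSpace (G - D x)) ∧ (∀ j, M.Res (E j) (gE j)) ∧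
      (∀ j l, C.coord (E j) (s l) = if l = j then 1 else 0) ∧
      ∀ f ∈ riemannRochSpace (G - D x), f = ∑ j, C.coord f (s j) • E j := by
    intro x
    obtain ⟨B⟩ := exists_hbasis_const (H := (⊤ : Subalgebra A (Unit → A))) hH1 C.toCoords
      (U := riemannRochSpace (G - D x)) (rrSpace_le (sub_le_self _ (hD0 x)))
      (Vb := riemannRochSpace (Gb - Db))
      (by rw [Model.image_rrSpace hM (by rw [map_sub, M.degree_poles, hDdeg]; omega), map_sub,
        map_zsmul, Model.divMap_poleDiv hM, hDmap])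
    obtain ⟨E, -, hE, hEr, hEs, hexp⟩ :=
      exists_echelon hH1 C.toCoords B s gE hgm hg hg0
    exact ⟨fun j => E j (), fun j => hE j (), fun j => hEr j (), fun j l => hEs j () l,
      fun f hf => hexp () f hf⟩
  choose E hEmem hEres hEs hEexp using hech
  have hEG : ∀ x j, E x j ∈ polesSpace M m := fun x j =>
    rrSpace_le (sub_le_self _ (hD0 x)) (hEmem x j)
  -- the coordinate functions
  let t : (Fin (Module.finrank (ResidueField A) (riemannRochSpace (Gb - Db))) × Fin BG.r) →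
      N → QA := fun q x => C.coord (E x q.1) (BG.piv q.2)
  set CS : Set (N → QA) := Set.range t
  have hCval : ∀ f ∈ CS, ∃ a : N → A, (∀ x, (a x : QA) = f x) ∧
      ∀ x x', residue A (a x) = residue A (a x') := by
    rintro f ⟨q, rfl⟩
    have key : ∀ x, ∃ a : A, (a : QA) = t q x ∧ residue A a = C.coordb (gE q.1) (BG.piv q.2) :=
      fun x => by
        obtain ⟨a, ha, hb⟩ := C.res _ _ (hEG x q.1) (hEres x q.1) (BG.piv q.2)
        exact ⟨a, ha, hb⟩
    choose a ha hb using key
    exact ⟨a, ha, fun x x' => by rw [hb, hb]⟩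
  -- separation
  have hsep : ∀ x y : N, x ≠ y → ∃ f ∈ CS, f x ≠ f y := by
    intro x y hxy
    by_contra! hall
    have hEeq : ∀ j, E x j = E y j := fun j => by
      rw [BG.expand _ (hEG x j), BG.expand _ (hEG y j)]
      exact Finset.sum_congr rfl fun n _ => congrArg (· • _) (hall (t (j, n)) ⟨_, rfl⟩)
    have hrr : riemannRochSpace (G - D x) = riemannRochSpace (G - D y) := by
      apply le_antisymm <;> intro f hf
      · rw [hEexp x f hf]
        exact sum_mem fun j _ => Submodule.smul_mem _ _ (hEeq j ▸ hEmem y j)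
      · rw [hEexp y f hf]
        exact sum_mem fun j _ => Submodule.smul_mem _ _ ((hEeq j).symm ▸ hEmem x j)
    have hbL : rBound QA F + 1 ≤ M.bound := by rw [Model.bound]; omega
    have hDxy : D x = D y := sub_right_injective (eq_of_rrSpace_eq hrr
      (by rw [map_sub, M.degree_poles, hDdeg]; omega) (by rw [map_sub, M.degree_poles, hDdeg]; omega))
    refine hxy (hi ?_)
    obtain ⟨-, h1, e1⟩ := hD x
    obtain ⟨-, h2, e2⟩ := hD y
    rw [← e1, ← e2]
    exact congrArg Pic0.mk (Subtype.ext (congrArg (fun z => z - G₀) hDxy))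
  refine ⟨CS, Set.finite_range t, fun f hf y => ?_, fun f hf y => ?_, ?_, hsep, ?_⟩
  · obtain ⟨a, ha, -⟩ := hCval f hf
    exact ha y ▸ (a y).2
  · obtain ⟨a, ha, hres⟩ := hCval f hf
    rw [← ha, ← ha, ← AddSubgroupClass.coe_sub]
    refine (A.valuation_lt_one_iff _).1 ((residue_eq_zero_iff _).1 ?_)
    rw [map_sub, hres y 0, sub_self]
  · -- inertia
    rintro σ hσ f ⟨⟨j, n⟩, rfl⟩ x
    have hσd := mem_decomposition_of_inertia hσ
    have hDσ : D (σ • x) = ρ σ • D x := by
      have hrep := (hD x).smul (ρ σ)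
      rw [hG₀, smul_poles hx, hPfix σ hσd fun a _ => inertia_sub_mem_centre hσ a, ← heq] at hrep
      exact ((hD (σ • x)).unique hrep (hDell _)).symm
    have hmem : ρ σ • E x j ∈ riemannRochSpace (G - D (σ • x)) := by
      have := smul_mem_rrSpace (hEmem x j) (ρ σ)
      rwa [smul_sub, hG, smul_poles hx, ← hDσ] at this
    have hE' : E (σ • x) j = ρ σ • E x j := by
      rw [hEexp (σ • x) _ hmem, Finset.sum_eq_single j]
      · rw [C.equiv, hEs, if_pos rfl, map_one, one_smul]
      · intro l _ hl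
        rw [C.equiv, hEs, if_neg hl, map_zero, zero_smul]
      · simp
    show C.coord (E (σ • x) j) (BG.piv n) = σ (C.coord (E x j) (BG.piv n))
    rw [hE', C.equiv]
  -- comultiplication
  set X := Submodule.span A (Set.image2 (fun (a b : N → QA) (p : N × N) => a p.1 * b p.2)
    (Algebra.adjoin A CS : Set (N → QA)) (Algebra.adjoin A CS))
  rintro f ⟨⟨j, n⟩, rfl⟩
  choose av hav havres using hCval
  set gens : Set (N × N → A) := {h | ∃ g, ∃ hg : g ∈ CS, (h = fun p => av g hg p.1) ∨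
    (h = fun p => av g hg p.2)}
  set H := Algebra.adjoin A gens
  have hH : ConstRes (residue A) H := constRes_adjoin fun h hh p p' => by
    obtain ⟨g, hg, rfl | rfl⟩ := hh
    · exact havres g hg _ _
    · exact havres g hg _ _
  have hlift : ∀ h ∈ H, ∃ Φ ∈ X, ∀ p : N × N, Φ p = (h p : QA) := by
    intro h hh
    induction hh using Algebra.adjoin_induction with
    | mem h hh =>
      obtain ⟨g, hg, rfl | rfl⟩ := hh
      · exact ⟨fun p => g p.1 * (1 : N → QA) p.2, Submodule.subset_span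
          ⟨g, Algebra.subset_adjoin hg, 1, one_mem _, rfl⟩, fun p => by simp [hav g hg]⟩
      · exact ⟨fun p => (1 : N → QA) p.1 * g p.2, Submodule.subset_span
          ⟨1, one_mem _, g, Algebra.subset_adjoin hg, rfl⟩, fun p => by simp [hav g hg]⟩
    | algebraMap a =>
      refine ⟨a • fun p : N × N => (1 : N → QA) p.1 * (1 : N → QA) p.2, Submodule.smul_mem _ _
        (Submodule.subset_span ⟨1, one_mem _, 1, one_mem _, rfl⟩), fun p => ?_⟩
      show (a : QA) * (1 * 1) = (a : QA)
      ring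
    | add a b _ _ ha hb =>
      obtain ⟨Φ, hΦ, e⟩ := ha
      obtain ⟨Φ', hΦ', e'⟩ := hb
      exact ⟨Φ + Φ', add_mem hΦ hΦ', fun p => by simp [e p, e' p]⟩
    | mul a b _ _ ha hb =>
      obtain ⟨Φ, hΦ, e⟩ := ha
      obtain ⟨Φ', hΦ', e'⟩ := hb
      exact ⟨Φ * Φ', adjoin_mul_span_le hΦ hΦ', fun p => by simp [e p, e' p]⟩
  have hfamily : ∀ pr : N × N → N,
      (∀ q, (fun p => av (t q) ⟨q, rfl⟩ (pr p)) ∈ H) →
      Nonempty (HBasis M H m (fun p => riemannRochSpace (G - D (pr p)))
        (riemannRochSpace (Gb - Db))) := by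
    intro pr hmem
    obtain ⟨hli, hspan⟩ := pivots_span C.toCoords hgm hg hg0
    refine ⟨⟨_, fun j p => E (pr p) j, gE, fun j => ?_, fun j p => hEres _ j,
      hli, hspan, fun p => le_antisymm (Submodule.span_le.2 ?_) fun f hf => ?_⟩⟩
    · rw [show (fun p => E (pr p) j) = ∑ n, fun p =>
          ((av (t (j, n)) ⟨_, rfl⟩ (pr p) : A) : QA) • BG.b n from funext fun p => by
        rw [Finset.sum_apply]
        refine (BG.expand _ (hEG (pr p) j)).trans (Finset.sum_congr rfl fun n _ => ?_)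
        rw [hav (t (j, n)) ⟨(j, n), rfl⟩]]
      exact sum_mem fun n _ => smul_mem_hfSpan (h := fun p =>
        av (t (j, n)) ⟨_, rfl⟩ (pr p)) (hmem _)
        (const_mem_hfSpan (BG.mem n) (BG.res n).mem)
    · rintro _ ⟨j, rfl⟩; exact hEmem _ j
    · rw [hEexp (pr p) f hf]
      exact sum_mem fun j _ => Submodule.smul_mem _ _ (Submodule.subset_span ⟨j, rfl⟩)
  obtain ⟨B₁⟩ := hfamily (fun p => p.1) fun q => Algebra.subset_adjoin ⟨_, ⟨q, rfl⟩, Or.inl rfl⟩
  obtain ⟨B₂⟩ := hfamily (fun p => p.2) fun q => Algebra.subset_adjoin ⟨_, ⟨q, rfl⟩, Or.inr rfl⟩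
  obtain ⟨B₃⟩ := exists_hbasis_add hM hH (m := m) (m₀ := m₀) C₆.toCoords (d := d) rfl (by omega)
    (by omega) (D₃ := fun p : N × N => D (p.1 + p.2)) (P₃ := P) B₁ B₂
    (fun p => hDdeg _) (fun p => hDdeg _) (fun p => hDdeg _)
    (fun p => by rw [hDmap]) (fun p => by rw [hDmap])
    (fun p => by rw [hDmap]) hP
    (fun p => (hD (p.1 + p.2)).1)
    (fun p => by
      have h3 := hD (p.1 + p.2)
      rw [map_add i] at h3
      exact (hD p.1).add (hD p.2) h3)
    hDb1 (fun p => by
      have h1 := riemann_ineq (D (p.1 + p.2) - P)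
      rw [map_sub, hDdeg, hPdeg] at h1
      omega)
  obtain ⟨E₃, hE₃f, hE₃m, -, hE₃s, -⟩ :=
    exists_echelon hH C.toCoords B₃ s gE hgm hg hg0
  have hE₃ : ∀ p : N × N, E (p.1 + p.2) j = E₃ j p := fun p => by
    rw [hEexp (p.1 + p.2) _ (hE₃m j p), Finset.sum_eq_single j]
    · rw [hE₃s, if_pos rfl, one_smul]
    · intro l _ hl
      rw [hE₃s, if_neg hl, zero_smul]
    · simp
  obtain ⟨v, hv⟩ := exists_vec C.toCoords (hE₃f j)
  obtain ⟨Φ, hΦ, e⟩ := hlift _ (v (BG.piv n)).2
  convert hΦ using 1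
  funext p
  rw [e]
  show C.coord (E (p.1 + p.2) j) (BG.piv n) = _
  rw [hE₃]
  exact (congrFun (hv p) (BG.piv n)).symm

end FLTAgent.ModLift.Push
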