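import Fermat.Agent.Ordinary.Connected
import Fermat.Agent.FlatModel.Descent

/-!
# Connected groups of functions commuting with inertia have no trivial quotient

For a finite group `M` with an algebra of integral functions which commute with inertia, separate
the points, take congruent values at all of them and are closed under comultiplication, a subgroup
stable under inertia which contains all `σ x - x` is everything, for `p ≥ 3` and `M` of `p`-power
order. A spanning set of functions commuting with inertia contains a basis, so no descent is needed.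
-/

set_option autoImplicit false
set_option linter.style.haveILetI false
set_option linter.unusedSectionVars false

noncomputable section

namespace FLTAgent.ModLift.Push

open FLTAgent.FlatModel

local notation "QA" => AlgebraicClosure ℚ
local notation "GG" => (AlgebraicClosure ℚ ≃ₐ[ℚ] AlgebraicClosure ℚ)

variable {A : ValuationSubring QA} {p : ℕ} [Fact p.Prime] (hA : A.LiesOverPrime p)
variable {M : Type} [AddCommGroup M] [DistribMulAction GG M]

/-- A basis of integral functions commuting with inertia with congruent values at all points and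
integral translates. -/
structure Frame (A : ValuationSubring QA) (M : Type) [AddCommGroup M] [DistribMulAction GG M] where
  ι : Type
  fin : Fintype ι
  b : ι → M → QA
  indep : LinearIndependent QA b
  spans : Submodule.span QA (Set.range b) = ⊤
  mem : ∀ i y, b i y ∈ A
  equiv : ∀ σ ∈ A.inertiaSubgroupIn ℚ, ∀ i y, b i (σ • y) = σ (b i y)
  congr : ∀ i y, A.valuation (b i y - b i 0) < 1
  translate : ∀ i, ∃ c : ι → ι → QA, (∀ j k, c j k ∈ A) ∧
    ∀ y z, b i (y + z) = ∑ j ∈ fin.elems, ∑ k ∈ fin.elems, c j k * b k z * b j y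

/-- A finite set of functions spanning a module over the valuation ring contains an independent
spanning one. -/
theorem exists_indep_subset {X : Type} (s : Finset (X → QA)) :
    ∃ t ⊆ s, Submodule.span A (t : Set (X → QA)) = Submodule.span A (s : Set (X → QA)) ∧
      LinearIndependent QA fun v : t => (v : X → QA) := by
  classical
  induction s using Finset.strongInduction with
  | _ s ih =>
    by_cases h : LinearIndependent QA fun v : s => (v : X → QA)
    · exact ⟨s, subset_rfl, rfl, h⟩
    obtain ⟨g, hg, i0, hi0⟩ := Fintype.not_linearIndependent_iff.1 h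
    obtain ⟨i, -, hmax⟩ := Finset.exists_max_image Finset.univ (fun j : s => A.valuation (g j))
      ⟨i0, Finset.mem_univ _⟩
    have hi : g i ≠ 0 := fun hz => hi0 (by
      have h1 := hmax i0 (Finset.mem_univ _)
      rw [hz, map_zero, le_zero_iff, Valuation.zero_iff] at h1
      exact h1)
    have hmem : (i : X → QA) ∈ Submodule.span A ((s.erase i : Finset (X → QA)) : Set (X → QA)) := by
      have h2 : (i : X → QA) = ∑ j ∈ Finset.univ.erase i, (-(g j / g i)) • (j : X → QA) := by
        rw [← Finset.add_sum_erase _ _ (Finset.mem_univ i), add_eq_zero_iff_eq_neg] at hg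
        have h3 := congrArg ((g i)⁻¹ • ·) hg
        simp only [inv_smul_smul₀ hi] at h3
        rw [h3, smul_neg, Finset.smul_sum, ← Finset.sum_neg_distrib]
        exact Finset.sum_congr rfl fun j _ => by rw [smul_smul, neg_smul, div_eq_inv_mul]
      refine (congrArg (· ∈ Submodule.span A
        ((s.erase (i : X → QA) : Finset (X → QA)) : Set (X → QA))) h2).mpr ?_
      refine sum_mem fun j hj => ?_
      have hA' : -(g j / g i) ∈ A := neg_mem (by
        rw [← A.valuation_le_one_iff, map_div₀]
        exact div_le_one_of_le₀ (hmax j (Finset.mem_univ j)) zero_le)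
      refine Submodule.smul_mem _ (⟨_, hA'⟩ : A) (Submodule.subset_span ?_)
      exact Finset.mem_coe.2 (Finset.mem_erase.2
        ⟨fun e => (Finset.mem_erase.1 hj).1 (Subtype.ext e), j.2⟩)
    obtain ⟨t, ht, hspan, hind⟩ := ih _ (Finset.erase_ssubset i.2)
    refine ⟨t, ht.trans (Finset.erase_subset _ _), hspan.trans (le_antisymm
      (Submodule.span_mono (Finset.coe_subset.2 (Finset.erase_subset _ _))) ?_), hind⟩
    refine Submodule.span_le.2 fun v hv => ?_
    rcases eq_or_ne v (i : X → QA) with rfl | hne
    · exact hmem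
    · exact Submodule.subset_span (Finset.mem_coe.2 (Finset.mem_erase.2 ⟨hne, hv⟩))

variable [Finite M]

set_option maxHeartbeats 1600000 in
/-- Functions as above give a frame. -/
theorem exists_frame (CS : Set (M → QA)) (hC : CS.Finite) (hval : ∀ f ∈ CS, ∀ y, f y ∈ A)
    (hcongr : ∀ f ∈ CS, ∀ y, A.valuation (f y - f 0) < 1)
    (heq : ∀ σ ∈ A.inertiaSubgroupIn ℚ, ∀ f ∈ CS, ∀ y, f (σ • y) = σ (f y))
    (hsep : ∀ x y : M, x ≠ y → ∃ f ∈ CS, f x ≠ f y)
    (hcomul : ∀ f ∈ CS, (fun q : M × M => f (q.1 + q.2)) ∈ Submodule.span A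
      (Set.image2 (fun (a b : M → QA) (q : M × M) => a q.1 * b q.2)
        (Algebra.adjoin A CS) (Algebra.adjoin A CS))) :
    Nonempty (Frame A M) := by
  classical
  haveI : Fintype M := Fintype.ofFinite M
  set H : Subalgebra A (M → QA) := Algebra.adjoin A CS
  have hHval : ∀ f ∈ H, ∀ y, f y ∈ A ∧ A.valuation (f y - f 0) < 1 := by
    intro f hf
    induction hf using Algebra.adjoin_induction with
    | mem f hf => exact fun y => ⟨hval f hf y, hcongr f hf y⟩
    | algebraMap a => exact fun y => ⟨a.2, by
        show A.valuation ((a : QA) - a) < 1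
        rw [sub_self, map_zero]; exact zero_lt_one⟩
    | add a b _ _ ha hb => exact fun y => ⟨add_mem (ha y).1 (hb y).1, by
        rw [Pi.add_apply, Pi.add_apply, add_sub_add_comm]
        exact A.valuation.map_add_lt (ha y).2 (hb y).2⟩
    | mul a b _ _ ha hb => exact fun y => ⟨mul_mem (ha y).1 (hb y).1, by
        rw [Pi.mul_apply, Pi.mul_apply,
          show a y * b y - a 0 * b 0 = (a y - a 0) * b y + a 0 * (b y - b 0) by ring]
        refine A.valuation.map_add_lt ?_ ?_
        · rw [map_mul]
          exact mul_lt_one_of_lt_of_le (ha y).2 ((A.valuation_le_one_iff _).2 (hb y).1)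
        · rw [map_mul, mul_comm]
          exact mul_lt_one_of_lt_of_le (hb y).2 ((A.valuation_le_one_iff _).2 (ha 0).1)⟩
  have hfg : H.toSubmodule.FG := fg_adjoin_of_finite hC fun f hf => by
    refine ⟨∏ x : M, (Polynomial.X - Polynomial.C (⟨f x, hval f hf x⟩ : A)),
      Polynomial.monic_prod_of_monic _ _ fun x _ => Polynomial.monic_X_sub_C _, ?_⟩
    funext x
    rw [← Polynomial.aeval_def]
    show Pi.evalAlgHom A (fun _ : M => QA) x (Polynomial.aeval f _) = 0
    rw [← Polynomial.aeval_algHom_apply, map_prod]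
    refine Finset.prod_eq_zero (Finset.mem_univ x) ?_
    rw [map_sub, Polynomial.aeval_X, Polynomial.aeval_C]
    exact sub_self _
  have hHspan : H.toSubmodule = Submodule.span A (Submonoid.closure CS : Set (M → QA)) :=
    Algebra.adjoin_eq_span A CS
  obtain ⟨s, hs, hs'⟩ := (Submodule.fg_span_iff_fg_span_finset_subset _).1 (hHspan ▸ hfg)
  obtain ⟨t, hts, htspan, hind⟩ := exists_indep_subset (A := A) s
  have hHt : H.toSubmodule = Submodule.span A (t : Set (M → QA)) := by rw [hHspan, hs', htspan]
  have htH : ∀ v ∈ t, v ∈ H := fun v hv => by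
    show v ∈ H.toSubmodule
    rw [hHt]
    exact Submodule.subset_span hv
  have hequiv : ∀ σ ∈ A.inertiaSubgroupIn ℚ, ∀ f ∈ Submonoid.closure CS,
      ∀ y, f (σ • y) = σ (f y) := by
    intro σ hσ f hf
    induction hf using Submonoid.closure_induction with
    | mem f hf => exact heq σ hσ f hf
    | one => exact fun y => (map_one σ).symm
    | mul a b _ _ ha hb =>
      intro y
      rw [Pi.mul_apply, Pi.mul_apply, map_mul, ha y, hb y]
  -- functions at single points
  choose! sc hscC hscne using hsep
  set P : M → (M → QA) := fun x => ∏ y ∈ Finset.univ.erase x, (sc x y - fun _ => sc x y y)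
  have hPmem : ∀ x, P x ∈ H := fun x => prod_mem fun y hy => by
    have hxy : x ≠ y := (Finset.mem_erase.1 hy).1.symm
    exact sub_mem (Algebra.subset_adjoin (hscC x y hxy))
      (H.algebraMap_mem (⟨_, hval _ (hscC x y hxy) y⟩ : A))
  have hP0 : ∀ x z, z ≠ x → P x z = 0 := fun x z hz => by
    simp only [P, Finset.prod_apply]
    exact Finset.prod_eq_zero (Finset.mem_erase.2 ⟨hz, Finset.mem_univ _⟩) (sub_self _)
  have hPx : ∀ x, P x x ≠ 0 := fun x => by
    simp only [P, Finset.prod_apply]
    exact Finset.prod_ne_zero_iff.2 fun y hy => sub_ne_zero.2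
      (hscne x y (Finset.mem_erase.1 hy).1.symm)
  have hrange : Set.range (fun v : t => (v : M → QA)) = (t : Set (M → QA)) := by simp
  refine ⟨⟨t, inferInstance, fun v => (v : M → QA), hind, ?_, fun v y => (hHval _ (htH v v.2) y).1,
    fun σ hσ v y => hequiv σ hσ _ (hs (hts v.2)) y, fun v y => (hHval _ (htH v v.2) y).2,
    fun v => ?_⟩⟩
  · refine eq_top_iff.2 fun f _ => ?_
    have hf : f = ∑ x : M, (f x * (P x x)⁻¹) • P x := funext fun z => by
      rw [Finset.sum_apply, Finset.sum_eq_single z]
      · show f z = f z * (P z z)⁻¹ * P z z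
        rw [mul_assoc, inv_mul_cancel₀ (hPx z), mul_one]
      · intro x _ hx
        show f x * (P x x)⁻¹ * P x z = 0
        rw [hP0 x z hx.symm, mul_zero]
      · simp
    rw [hf, hrange]
    refine sum_mem fun x _ => Submodule.smul_mem _ _ ?_
    have h : P x ∈ Submodule.span A (t : Set (M → QA)) := hHt ▸ hPmem x
    exact Submodule.span_subset_span A QA _ h
  · have hX : (fun q : M × M => (v : M → QA) (q.1 + q.2)) ∈ Submodule.span A
        (Set.image2 (fun (a b : M → QA) (q : M × M) => a q.1 * b q.2) (H : Set (M → QA)) H) := by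
      have key : ∀ f ∈ H, (fun q : M × M => f (q.1 + q.2)) ∈ Submodule.span A
          (Set.image2 (fun (a b : M → QA) (q : M × M) => a q.1 * b q.2) (H : Set (M → QA)) H) := by
        intro f hf
        induction hf using Algebra.adjoin_induction with
        | mem f hf => exact hcomul f hf
        | algebraMap a =>
          have h1 : (1 : M → QA) ∈ H := one_mem _
          have : (fun q : M × M => algebraMap A (M → QA) a (q.1 + q.2)) =
              a • fun q : M × M => (1 : M → QA) q.1 * (1 : M → QA) q.2 := funext fun q => by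
            show (a : QA) = (a : QA) * (1 * 1)
            ring
          rw [this]
          exact Submodule.smul_mem _ _ (Submodule.subset_span ⟨1, h1, 1, h1, rfl⟩)
        | add a b _ _ ha hb => exact add_mem ha hb
        | mul a b _ _ ha hb => exact adjoin_mul_span_le ha hb
      exact key _ (htH v v.2)
    have hcoord : ∀ a ∈ H, ∃ α : t → A, a = ∑ i, α i • (i : M → QA) := fun a ha => by
      have h : a ∈ Submodule.span A (Set.range fun v : t => (v : M → QA)) := by
        rw [hrange, ← hHt]; exact ha
      obtain ⟨α, hα⟩ := (Submodule.mem_span_range_iff_exists_fun A).1 h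
      exact ⟨α, hα.symm⟩
    have key2 : ∀ g ∈ Submodule.span A
        (Set.image2 (fun (a b : M → QA) (q : M × M) => a q.1 * b q.2) (H : Set (M → QA)) H),
        ∃ c : t → t → QA, (∀ j k, c j k ∈ A) ∧
          ∀ y z, g (y, z) = ∑ j, ∑ k, c j k * (k : M → QA) z * (j : M → QA) y := by
      intro g hg
      induction hg using Submodule.span_induction with
      | mem g hg =>
        obtain ⟨a, ha, b, hb, rfl⟩ := hg
        obtain ⟨α, rfl⟩ := hcoord a ha
        obtain ⟨β, rfl⟩ := hcoord b hb
        refine ⟨fun j k => (α j : QA) * β k, fun j k => mul_mem (α j).2 (β k).2, fun y z => ?_⟩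
        simp only [Finset.sum_apply, Pi.smul_apply, Finset.sum_mul, Finset.mul_sum]
        rw [Finset.sum_comm]
        refine Finset.sum_congr rfl fun j _ => Finset.sum_congr rfl fun k _ => ?_
        show (α j : QA) * (j : M → QA) y * ((β k : QA) * (k : M → QA) z) = _
        ring
      | zero => exact ⟨0, fun j k => zero_mem _, fun y z => by simp⟩
      | add g g' _ _ h h' =>
        obtain ⟨c, hc, e⟩ := h
        obtain ⟨c', hc', e'⟩ := h'
        refine ⟨c + c', fun j k => add_mem (hc j k) (hc' j k), fun y z => ?_⟩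
        simp only [Pi.add_apply, e, e', ← Finset.sum_add_distrib, add_mul]
      | smul r g _ h =>
        obtain ⟨c, hc, e⟩ := h
        refine ⟨fun j k => (r : QA) * c j k, fun j k => mul_mem r.2 (hc j k), fun y z => ?_⟩
        show (r : QA) * g (y, z) = _
        simp only [e, Finset.mul_sum, mul_assoc]
    obtain ⟨c, hc, e⟩ := key2 _ hX
    exact ⟨c, hc, fun y z => e y z⟩

namespace Frame

variable (F : Frame A M)

instance : Fintype F.ι := F.fin

/-- Linear combinations of the basis. -/
def comb : (F.ι → QA) →ₗ[QA] (M → QA) := Fintype.linearCombination QA F.b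

theorem comb_apply (c : F.ι → QA) (y : M) : F.comb c y = ∑ i, c i * F.b i y := by
  simp [comb, Fintype.linearCombination_apply, Finset.sum_apply]

theorem comb_injective : Function.Injective F.comb :=
  F.indep.fintypeLinearCombination_injective

theorem exists_comb_eq (g : M → QA) : ∃ c, F.comb c = g := by
  have h : g ∈ Submodule.span QA (Set.range F.b) := F.spans ▸ Submodule.mem_top
  rw [← Fintype.range_linearCombination] at h
  exact h

set_option maxHeartbeats 1600000 in
include hA F in
/-- No trivial quotient. -/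
theorem mem_of_fix (hp3 : 3 ≤ p) {L : AddSubgroup M}
    (hL : ∀ σ ∈ A.inertiaSubgroupIn ℚ, ∀ l ∈ L, σ • l ∈ L) {x : M}
    (hfix : ∀ σ ∈ A.inertiaSubgroupIn ℚ, σ • x - x ∈ L) (hpx : p • x ∈ L) : x ∈ L := by
  classical
  have hp : p.Prime := Fact.out
  set π := A.valuation (p : QA)
  have hπ1 : π < 1 := Mazur.valuation_natCast_lt_one A hA
  have hπ0 : π ≠ 0 := Mazur.valuation_natCast_ne_zero A hp
  -- the functions invariant under `L`
  let W : Submodule QA (F.ι → QA) :=
    { carrier := {c | ∀ y, ∀ l ∈ L, F.comb c (y + l) = F.comb c y}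
      zero_mem' := by simp
      add_mem' := fun {a b} ha hb y l hl => by simp [map_add, ha y l hl, hb y l hl]
      smul_mem' := fun r a ha y l hl => by simp [map_smul, ha y l hl] }
  have hσ : ∀ σ ∈ A.inertiaSubgroupIn ℚ, ∀ c z,
      F.comb (fun i => σ (c i)) z = σ (F.comb c (σ⁻¹ • z)) := fun σ hs c z => by
    rw [comb_apply, comb_apply, map_sum]
    refine Finset.sum_congr rfl fun i _ => ?_
    rw [map_mul, ← F.equiv σ hs, smul_inv_smul]
  have hWst : ∀ σ ∈ (A.inertiaSubgroupIn ℚ : Set GG), ∀ c ∈ W, (fun i => σ (c i)) ∈ W :=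
    fun σ hs c hc y l hl => by
      rw [hσ σ hs, hσ σ hs, smul_add, hc _ _ (hL _ (inv_mem hs) l hl)]
  let Good : ℕ → Prop := fun m => ∀ c ∈ W, (∀ i, c i ∈ A) →
    A.valuation (F.comb c x - F.comb c 0) ≤ π ^ m
  have hconn : ∀ c : F.ι → QA, (∀ i, c i ∈ A) → A.valuation (F.comb c x - F.comb c 0) < 1 := by
    intro c hc
    rw [comb_apply, comb_apply, ← Finset.sum_sub_distrib]
    refine A.valuation.map_sum_lt' zero_lt_one fun i _ => ?_
    rw [← mul_sub, map_mul, mul_comm]
    exact mul_lt_one_of_lt_of_le (F.congr i x) ((A.valuation_le_one_iff _).2 (hc i))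
  have hspan : ∀ r : A.ValueGroup, (∀ c ∈ W, (∀ i, c i ∈ A) →
      (∀ σ ∈ A.inertiaSubgroupIn ℚ, ∀ i, σ (c i) = c i) →
        A.valuation (F.comb c x - F.comb c 0) ≤ r) →
      ∀ c ∈ W, (∀ i, c i ∈ A) → A.valuation (F.comb c x - F.comb c 0) ≤ r := by
    intro r hr c hc hcA
    have h := Ordinary.le_span_fixed (A := A) (A.inertiaSubgroupIn ℚ : Set GG) W hWst hc hcA
    clear hc hcA
    induction h using Submodule.span_induction with
    | mem w hw => exact hr w hw.1 hw.2.1 hw.2.2
    | zero => simp
    | add u v _ _ hu hv =>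
      simp only [map_add, Pi.add_apply, add_sub_add_comm]
      exact A.valuation.map_add_le hu hv
    | smul a w _ hw =>
      rw [show a • w = (a : QA) • w from rfl, map_smul, Pi.smul_apply, Pi.smul_apply, smul_eq_mul,
        smul_eq_mul, ← mul_sub, map_mul]
      exact (mul_le_of_le_one_left' ((A.valuation_le_one_iff _).2 a.2)).trans hw
  have hinv : ∀ c ∈ W, (∀ σ ∈ A.inertiaSubgroupIn ℚ, ∀ i, σ (c i) = c i) →
      ∀ σ ∈ A.inertiaSubgroupIn ℚ, σ (F.comb c x - F.comb c 0) = F.comb c x - F.comb c 0 := by
    intro c hc hcfix σ hs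
    have e : ∀ z, σ (F.comb c z) = F.comb c (σ • z) := fun z => by
      have := hσ σ hs c (σ • z)
      rw [show (fun i => σ (c i)) = c from funext (hcfix σ hs), inv_smul_smul] at this
      exact this.symm
    rw [map_sub, e, e, smul_zero]
    congr 1
    conv_lhs => rw [show σ • x = x + (σ • x - x) by abel]
    exact hc x _ (hfix σ hs)
  have hone : Good 1 := hspan _ fun c hc hcA hcfix => by
    rcases eq_or_ne (F.comb c x - F.comb c 0) 0 with h0 | h0
    · rw [h0, map_zero]; exact zero_le
    obtain ⟨i, hi⟩ := Mazur.exists_zpow_valuation A hp hA h0 (hinv c hc hcfix)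
    have h1 := hconn c hcA
    rw [hi] at h1 ⊢
    rw [pow_one]
    have hi1 : 1 ≤ i := by
      by_contra hh
      exact (not_le.2 h1) (one_le_zpow_of_nonpos₀ (zero_lt_iff.2 hπ0) hπ1.le (by omega))
    calc π ^ i ≤ π ^ (1 : ℤ) := zpow_le_zpow_right_of_le_one₀ (zero_lt_iff.2 hπ0) hπ1.le hi1
      _ = π := zpow_one π
  -- translation by `x`
  let Sx : Module.End QA (M → QA) := LinearMap.funLeft QA QA (· + x)
  have hSx : ∀ g y, Sx g y = g (y + x) := fun _ _ => rfl
  have hstep : ∀ m, Good m → ∀ c ∈ W, (∀ i, c i ∈ A) →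
      ∃ d ∈ W, (∀ i, d i ∈ A) ∧ (Sx - 1) (F.comb c) = ((p : QA) ^ m) • F.comb d := by
    intro m hm c hc hcA
    choose t ht htr using F.translate
    let e : F.ι → F.ι → QA := fun j k => ∑ i, c i * t i j k
    have he : ∀ y z, F.comb c (y + z) = ∑ j, F.comb (e j) z * F.b j y := by
      intro y z
      rw [comb_apply]
      have htr' : ∀ i, F.b i (y + z) = ∑ j, ∑ k, t i j k * F.b k z * F.b j y := fun i => htr i y z
      simp only [htr', Finset.mul_sum]
      rw [Finset.sum_comm]
      refine Finset.sum_congr rfl fun j _ => ?_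
      simp only [comb_apply, e, Finset.sum_mul]
      rw [Finset.sum_comm]
      refine Finset.sum_congr rfl fun i _ => Finset.sum_congr rfl fun k _ => ?_
      ring
    have heA : ∀ j k, e j k ∈ A := fun j k => sum_mem fun i _ => mul_mem (hcA i) (ht i j k)
    have heW : ∀ j, e j ∈ W := by
      intro j z l hl
      have h : ∀ w, F.comb (fun j => F.comb (e j) w) = fun y => F.comb c (y + w) := fun w =>
        funext fun y => by rw [comb_apply, he]
      have := F.comb_injective (show F.comb (fun j => F.comb (e j) (z + l)) =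
          F.comb (fun j => F.comb (e j) z) by
        rw [h, h]; funext y; rw [← add_assoc, hc _ l hl])
      exact congrFun this j
    set d : F.ι → QA := fun j => ((p : QA) ^ m)⁻¹ * (F.comb (e j) x - F.comb (e j) 0)
    have hd : (Sx - 1) (F.comb c) = ((p : QA) ^ m) • F.comb d := by
      funext y
      have h2 := he y 0
      rw [add_zero] at h2
      rw [Pi.smul_apply, smul_eq_mul, LinearMap.sub_apply, Pi.sub_apply, hSx,
        Module.End.one_apply, he, h2, comb_apply, Finset.mul_sum, ← Finset.sum_sub_distrib]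
      refine Finset.sum_congr rfl fun j _ => ?_
      simp only [d]
      rw [← mul_assoc ((p : QA) ^ m), mul_inv_cancel_left₀ (pow_ne_zero _ (Nat.cast_ne_zero.2 hp.ne_zero))]
      ring
    refine ⟨d, fun y l hl => ?_, fun j => ?_, hd⟩
    · refine mul_left_cancel₀ (pow_ne_zero m (Nat.cast_ne_zero.2 hp.ne_zero : (p : QA) ≠ 0)) ?_
      have h1 := congrFun hd (y + l)
      have h2 := congrFun hd y
      simp only [Pi.smul_apply, smul_eq_mul, LinearMap.sub_apply, Pi.sub_apply, hSx,
        Module.End.one_apply] at h1 h2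
      rw [← h1, ← h2, add_right_comm, hc _ l hl, hc _ l hl]
    · rw [← A.valuation_le_one_iff, map_mul, map_inv₀, map_pow]
      exact inv_mul_le_one_of_le₀ (hm _ (heW j) (heA j)) zero_le
  -- the bound doubles
  have hdouble : ∀ m, 1 ≤ m → Good m → Good (2 * m) := by
    intro m hm1 hm c hc hcA
    have hiter : ∀ j : ℕ, ∃ d ∈ W, (∀ i, d i ∈ A) ∧
        ((Sx - 1) ^ j) (F.comb c) = ((p : QA) ^ (m * j)) • F.comb d := by
      intro j
      induction j with
      | zero => exact ⟨c, hc, hcA, by simp⟩
      | succ j ih =>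
        obtain ⟨d, hd, hdA, e⟩ := ih
        obtain ⟨d', hd', hd'A, e'⟩ := hstep m hm d hd hdA
        refine ⟨d', hd', hd'A, ?_⟩
        rw [pow_succ', Module.End.mul_apply, e, map_smul, e', smul_smul, ← pow_add]
        ring_nf
    have hval : ∀ j, A.valuation (((Sx - 1) ^ j) (F.comb c) 0) ≤ π ^ (m * j) := fun j => by
      obtain ⟨d, -, hdA, e⟩ := hiter j
      rw [e, Pi.smul_apply, smul_eq_mul, map_mul, map_pow]
      refine mul_le_of_le_one_right' ?_
      rw [comb_apply]
      refine A.valuation.map_sum_le fun i _ => ?_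
      rw [map_mul]
      exact mul_le_one' ((A.valuation_le_one_iff _).2 (hdA i))
        ((A.valuation_le_one_iff _).2 (F.mem i 0))
    have hpow : ∀ (k : ℕ) g y, (Sx ^ k) g y = g (y + k • x) := fun k => by
      induction k with
      | zero => intro g y; simp
      | succ k ih => intro g y; rw [pow_succ, Module.End.mul_apply, ih, hSx, succ_nsmul, add_assoc]
    have hbin : (Sx ^ p) (F.comb c) 0 = ∑ j ∈ Finset.range (p + 1),
        (p.choose j : QA) * ((Sx - 1) ^ j) (F.comb c) 0 := by
      conv_lhs => rw [show Sx = (Sx - 1) + 1 by abel]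
      rw [(Commute.one_right _).add_pow, LinearMap.sum_apply, Finset.sum_apply]
      refine Finset.sum_congr rfl fun j _ => ?_
      rw [one_pow, mul_one, (Nat.cast_commute _ _).symm.eq, ← nsmul_eq_mul, LinearMap.smul_apply,
        Pi.smul_apply, nsmul_eq_mul]
    rw [hpow, hc 0 _ hpx, Finset.sum_range_succ' _ p] at hbin
    simp only [Nat.choose_zero_right, Nat.cast_one, pow_zero, Module.End.one_apply, one_mul,
      right_eq_add] at hbin
    obtain ⟨q, rfl⟩ : ∃ q, p = q + 1 := ⟨p - 1, by omega⟩
    rw [Finset.sum_range_succ' _ q, add_eq_zero_iff_eq_neg'] at hbin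
    simp only [zero_add, Nat.choose_one_right, pow_one, LinearMap.sub_apply, Pi.sub_apply, hSx,
      Module.End.one_apply] at hbin
    have hb : A.valuation ((↑(q + 1) : QA) * (F.comb c x - F.comb c 0)) ≤ π ^ (2 * m + 1) := by
      rw [hbin, Valuation.map_neg]
      refine A.valuation.map_sum_le fun j hj => ?_
      rw [map_mul]
      rcases eq_or_ne (j + 1 + 1) (q + 1) with hjq | hjq
      · refine (mul_le_mul' ((A.valuation_le_one_iff _).2 (natCast_mem A _)) (hval _)).trans ?_
        rw [one_mul]
        exact pow_le_pow_right_of_le_one' hπ1.le (by rw [hjq]; nlinarith)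
      · obtain ⟨r, hr⟩ := hp.dvd_choose_self (k := j + 1 + 1) (by omega)
          (by have := Finset.mem_range.1 hj; omega)
        rw [hr, Nat.cast_mul, map_mul, show π ^ (2 * m + 1) = π * π ^ (m * 2) by
          rw [pow_succ', mul_comm 2 m]]
        refine mul_le_mul' (mul_le_of_le_one_right' ((A.valuation_le_one_iff _).2 (natCast_mem A r)))
          ((hval _).trans ?_)
        exact pow_le_pow_right_of_le_one' hπ1.le (Nat.mul_le_mul_left m (by omega))
    rw [map_mul, pow_succ'] at hb
    exact le_of_mul_le_mul_left hb (zero_lt_iff.2 hπ0)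
  have hall : ∀ m, Good (2 ^ m) := fun m => by
    induction m with
    | zero => simpa using hone
    | succ m ih => rw [pow_succ']; exact hdouble _ Nat.one_le_two_pow ih
  -- so all invariant functions take the same value at `x` and `0`
  have hzero : ∀ c ∈ W, (∀ i, c i ∈ A) → F.comb c x = F.comb c 0 := fun c hc hcA => by
    refine sub_eq_zero.1 ((Valuation.zero_iff _).1 (le_zero_iff.1 (hspan 0 ?_ c hc hcA)))
    intro c hc hcA hcfix
    rcases eq_or_ne (F.comb c x - F.comb c 0) 0 with h0 | h0
    · rw [h0, map_zero]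
    exfalso
    obtain ⟨i, hi⟩ := Mazur.exists_zpow_valuation A hp hA h0 (hinv c hc hcfix)
    have h1 := hall i.natAbs c hc hcA
    rw [hi, ← zpow_natCast] at h1
    have h2 := (zpow_right_strictAnti₀ (zero_lt_iff.2 hπ0) hπ1).le_iff_ge.1 h1
    have h3 : i.natAbs < 2 ^ i.natAbs := Nat.lt_two_pow_self
    omega
  by_contra hxL
  obtain ⟨c, hc⟩ := F.exists_comb_eq (fun y => if y ∈ L then 1 else 0)
  obtain ⟨r, hr⟩ : ∃ r : QA, r ≠ 0 ∧ ∀ i, r * c i ∈ A := by
    obtain ⟨i₀, hi₀⟩ := Function.ne_iff.1 (show c ≠ 0 from fun h => by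
      have := congrFun hc 0
      simp [h] at this)
    obtain ⟨a, -, hmax⟩ := Finset.exists_max_image Finset.univ (fun i => A.valuation (c i))
      ⟨i₀, Finset.mem_univ _⟩
    have ha : c a ≠ 0 := fun h => hi₀ (by
      have h1 := hmax i₀ (Finset.mem_univ _)
      rw [h, map_zero, le_zero_iff, Valuation.zero_iff] at h1
      exact h1)
    refine ⟨(c a)⁻¹, inv_ne_zero ha, fun i => ?_⟩
    rw [← A.valuation_le_one_iff, map_mul, map_inv₀]
    exact inv_mul_le_one_of_le₀ (hmax i (Finset.mem_univ i)) zero_le
  have h := hzero (r • c) (fun y l hl => by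
    simp only [map_smul, hc, Pi.smul_apply, add_mem_cancel_right hl]) hr.2
  simp only [map_smul, hc, Pi.smul_apply, smul_eq_mul, if_neg hxL, if_pos (zero_mem L), mul_zero,
    mul_one] at h
  exact hr.1 h.symm

include hA F in
/-- A stable subgroup containing all differences under inertia of a group of `p`-power order is
everything. -/
theorem eq_top (hp3 : 3 ≤ p) {n : ℕ} (hn : ∀ x : M, p ^ n • x = 0) {L : AddSubgroup M}
    (hL : ∀ σ ∈ A.inertiaSubgroupIn ℚ, ∀ l ∈ L, σ • l ∈ L)
    (hfix : ∀ σ ∈ A.inertiaSubgroupIn ℚ, ∀ x : M, σ • x - x ∈ L) : L = ⊤ := by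
  have key : ∀ k, ∀ x : M, p ^ k • x ∈ L → x ∈ L := by
    intro k
    induction k with
    | zero => intro x hx; rwa [pow_zero, one_smul] at hx
    | succ k ih =>
      intro x hx
      refine F.mem_of_fix hA hp3 hL (fun σ hσ => hfix σ hσ x) (ih _ ?_)
      rwa [← mul_smul, ← pow_succ]
  exact (AddSubgroup.eq_top_iff' L).2 fun x => key n x (by rw [hn]; exact zero_mem L)

end Frame

end FLTAgent.ModLift.Push
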